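/-
Second-look certificate for S15 (not a proof of S15).

`S15_without_hp'_is_false` below is a complete proof that the frozen statement S15 becomes
FALSE when the hypothesis `p ∉ {2, 3, 5, 7, 13}` is dropped (counterexample: `p = 5`, the Tate
normal form curve `y² - 5xy - 6y = x³ - 6x²` of discriminant `-31 * 6^5`, `Q = (0,0)`, `ℓ = 31`).
Hence the remaining hypotheses of S15 are jointly satisfiable and do not imply the conclusion:
every proof of S15 must use the arithmetic of `p ≥ 11` (i.e. Mazur's theorem on rational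
`p`-torsion / the Eisenstein quotient of `J₀(p)`); there is no definitional shortcut.
`S15_without_hp'_is_false_seven` does the same for `p = 7` (`ℓ = 29`).
-/
import Mathlib
import Fermat.Prelude.Def_EllipticCurve_ZeroComponentAt
import Fermat.Prelude.Def_FLTPrelim_Ramification

set_option autoImplicit false
open WeierstrassCurve WeierstrassCurve.Affine

namespace Fermat.Agent.S15

local notation "K" => AlgebraicClosure ℚ

/-- Tate normal form curve `y² - 5xy - 6y = x³ - 6x²`; `(0,0)` has order 5. -/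
def W5 : WeierstrassCurve ℤ := ⟨-5, -6, -6, 0, 0⟩

lemma W5_Δ : W5.Δ = -241056 := by
  simp [W5, WeierstrassCurve.Δ, WeierstrassCurve.b₂, WeierstrassCurve.b₄, WeierstrassCurve.b₆,
    WeierstrassCurve.b₈]

lemma W5_c₄ : W5.c₄ = -719 := by
  simp [W5, WeierstrassCurve.c₄, WeierstrassCurve.b₂, WeierstrassCurve.b₄]

noncomputable abbrev E5 : WeierstrassCurve.Affine K := (W5.map (Int.castRingHom ℚ))⁄K

lemma E5_a₁ : E5.a₁ = -5 := by simp [E5, W5, WeierstrassCurve.baseChange]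
lemma E5_a₂ : E5.a₂ = -6 := by simp [E5, W5, WeierstrassCurve.baseChange]
lemma E5_a₃ : E5.a₃ = -6 := by simp [E5, W5, WeierstrassCurve.baseChange]
lemma E5_a₄ : E5.a₄ = 0 := by simp [E5, W5, WeierstrassCurve.baseChange]
lemma E5_a₆ : E5.a₆ = 0 := by simp [E5, W5, WeierstrassCurve.baseChange]

lemma E5_ns00 : E5.Nonsingular 0 0 := by
  rw [nonsingular_zero, E5_a₆, E5_a₃]
  exact ⟨rfl, Or.inl (by norm_num)⟩

lemma E5_ns6 : E5.Nonsingular 6 36 := by
  rw [nonsingular_iff, equation_iff, E5_a₁, E5_a₂, E5_a₃, E5_a₄, E5_a₆]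
  refine ⟨by norm_num, Or.inr (by norm_num)⟩

noncomputable def Q5 : E5.Point := .some 0 0 E5_ns00
noncomputable def R5 : E5.Point := .some 6 36 E5_ns6

lemma Q5_add_Q5 : Q5 + Q5 = R5 := by
  have hy : (0 : K) ≠ E5.negY 0 0 := by
    rw [negY, E5_a₁, E5_a₃]; norm_num
  rw [Q5, Point.add_self_of_Y_ne hy, R5, Point.some.injEq]
  rw [slope_of_Y_ne rfl hy]
  simp only [addX, addY, negAddY, negY, E5_a₁, E5_a₂, E5_a₃, E5_a₄]
  constructor <;> norm_num

lemma R5_add_R5 : R5 + R5 = -Q5 := by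
  have hy : (36 : K) ≠ E5.negY 6 36 := by
    rw [negY, E5_a₁, E5_a₃]; norm_num
  rw [R5, Point.add_self_of_Y_ne hy, Q5, Point.neg_some, Point.some.injEq]
  rw [slope_of_Y_ne rfl hy]
  simp only [addX, addY, negAddY, negY, E5_a₁, E5_a₂, E5_a₃, E5_a₄]
  constructor <;> norm_num

lemma five_nsmul_Q5 : 5 • Q5 = 0 := by
  have : 5 • Q5 = (Q5 + Q5) + (Q5 + Q5) + Q5 := by abel
  rw [this, Q5_add_Q5, R5_add_R5]; simp

lemma addOrderOf_Q5 : addOrderOf Q5 = 5 := by
  have : Fact (Nat.Prime 5) := ⟨by norm_num⟩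
  exact addOrderOf_eq_prime five_nsmul_Q5 (Point.some_ne_zero _)


lemma Q5_fixed (σ : K ≃ₐ[ℚ] K) : σ • Q5 = Q5 := by
  rw [Point.algEquiv_smul_def, Q5, Point.map_some, Point.some.injEq]
  exact ⟨map_zero _, map_zero _⟩

/-- If `q` is a nonunit of `A`, then it vanishes in the residue field. -/
lemma natCast_residue_eq_zero {A : ValuationSubring K} {q : ℕ} (hA : A.LiesOverPrime q) :
    (q : IsLocalRing.ResidueField A) = 0 := by
  obtain ⟨hq, hm⟩ := (ValuationSubring.mem_nonunits_iff_exists_mem_maximalIdeal).1 hA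
  have h1 : IsLocalRing.residue A ⟨(q : K), hq⟩ = 0 :=
    (IsLocalRing.residue_eq_zero_iff _).2 hm
  have h2 : (⟨(q : K), hq⟩ : A) = (q : A) := by ext; simp
  rw [h2, map_natCast] at h1
  exact h1

/-- If `6` vanishes in the residue field of `A` then `(0,0)` reduces to a singular point. -/
lemma not_inZero_Q5 {A : ValuationSubring K}
    (h6 : (6 : IsLocalRing.ResidueField A) = 0) : ¬ W5.InZeroComponentAt A Q5 := by
  rintro (h0 | ⟨x, y, h, hQ, hx | ⟨hx, hy, hns⟩⟩)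
  · exact Point.some_ne_zero _ h0
  · obtain ⟨rfl, rfl⟩ := Point.some.inj hQ
    exact hx A.zero_mem
  · obtain ⟨rfl, rfl⟩ := Point.some.inj hQ
    have h00 : (⟨0, hx⟩ : A) = 0 := rfl
    rw [h00, map_zero, nonsingular_zero] at hns
    obtain ⟨-, h3 | h4⟩ := hns
    · apply h3
      simp only [W5, WeierstrassCurve.map_a₃, eq_intCast, Int.cast_neg, Int.cast_ofNat, h6, neg_zero]
    · apply h4
      simp [W5]

lemma not_inZero_Q5_two {A : ValuationSubring K} (hA : A.LiesOverPrime 2) :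
    ¬ W5.InZeroComponentAt A Q5 := by
  apply not_inZero_Q5
  have h := natCast_residue_eq_zero hA
  have : (6 : IsLocalRing.ResidueField A) = ((2 : ℕ) : IsLocalRing.ResidueField A) * 3 := by
    push_cast; norm_num
  rw [this, h, zero_mul]

lemma not_inZero_Q5_three {A : ValuationSubring K} (hA : A.LiesOverPrime 3) :
    ¬ W5.InZeroComponentAt A Q5 := by
  apply not_inZero_Q5
  have h := natCast_residue_eq_zero hA
  have : (6 : IsLocalRing.ResidueField A) = ((3 : ℕ) : IsLocalRing.ResidueField A) * 2 := by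
    push_cast; norm_num
  rw [this, h, zero_mul]

/-- At a place over `31` the point `(0,0)` reduces to a nonsingular point. -/
lemma inZero_Q5_thirtyOne {A : ValuationSubring K} (hA : A.LiesOverPrime 31) :
    W5.InZeroComponentAt A Q5 := by
  refine Or.inr ⟨0, 0, E5_ns00, rfl, Or.inr ⟨A.zero_mem, A.zero_mem, ?_⟩⟩
  have h00 : (⟨0, A.zero_mem⟩ : A) = 0 := rfl
  rw [h00, map_zero, nonsingular_zero]
  refine ⟨by simp [W5], Or.inl ?_⟩
  have h := natCast_residue_eq_zero hA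
  intro h3
  simp only [W5, WeierstrassCurve.map_a₃, eq_intCast, Int.cast_neg, Int.cast_ofNat,
    neg_eq_zero] at h3
  have h1 : (1 : IsLocalRing.ResidueField A) = ((31 : ℕ) : IsLocalRing.ResidueField A) - 5 * 6 := by
    push_cast; norm_num
  rw [h, h3] at h1
  simp at h1

/-- There is a valuation subring of `ℚ̄` lying over `31`. -/
lemma exists_liesOver (q : ℕ) (hq : q.Prime) :
    ∃ A : ValuationSubring K, A.LiesOverPrime q := by
  let A₀ : Subring K := (algebraMap ℤ K).range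
  let x : A₀ := ⟨(q : K), ⟨(q : ℤ), by simp⟩⟩
  have hI : Ideal.span {x} ≠ ⊤ := by
    intro h
    rw [Ideal.span_singleton_eq_top] at h
    obtain ⟨⟨y, n, rfl⟩, hy⟩ := isUnit_iff_exists_inv.1 h
    have h1 : ((q : K) * (algebraMap ℤ K n)) = 1 := congrArg Subtype.val hy
    have h2 : ((q : ℤ) * n : ℤ) = 1 := by
      have : ((((q : ℤ) * n : ℤ)) : K) = ((1 : ℤ) : K) := by
        push_cast
        simpa using h1
      exact_mod_cast this
    have h3 : (q : ℤ) ∣ 1 := Dvd.intro _ h2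
    have h4 : q ∣ 1 := by exact_mod_cast h3
    exact hq.one_lt.ne' (Nat.dvd_one.1 h4)
  obtain ⟨B, -, hB⟩ := Ideal.image_subset_nonunits_valuationSubring (Ideal.span {x}) hI
  exact ⟨B, hB ⟨x, Ideal.subset_span rfl, rfl⟩⟩

/-- **The statement S15 with the hypothesis `p ∉ {2, 3, 5, 7, 13}` removed is false**
(counterexample: `p = 5`, the curve `y² - 5xy - 6y = x³ - 6x²`, `Q = (0,0)`, `ℓ = 31`). -/
theorem S15_without_hp'_is_false :
    ¬ (∀ {p : ℕ} (_ : p.Prime)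
    (W : WeierstrassCurve ℤ) (_ : W.Δ ≠ 0)
    (Q : ((W.map (Int.castRingHom ℚ))⁄(AlgebraicClosure ℚ)).Point)
    (_ : ∀ σ : AlgebraicClosure ℚ ≃ₐ[ℚ] AlgebraicClosure ℚ, σ • Q = Q)
    (_ : addOrderOf Q = p)
    (_ : (2 : ℤ) ∣ W.Δ) (_ : ¬ (2 : ℤ) ∣ W.c₄)
    (_ : ∀ A : ValuationSubring (AlgebraicClosure ℚ), A.LiesOverPrime 2 → ¬ W.InZeroComponentAt A Q)
    (_ : (3 : ℤ) ∣ W.Δ) (_ : ¬ (3 : ℤ) ∣ W.c₄)
    (_ : ∀ A : ValuationSubring (AlgebraicClosure ℚ), A.LiesOverPrime 3 → ¬ W.InZeroComponentAt A Q)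
    {ℓ : ℕ} (_ : ℓ.Prime) (_ : ℓ ≠ p) (_ : (ℓ : ℤ) ∣ W.Δ) (_ : ¬ (ℓ : ℤ) ∣ W.c₄)
    (A : ValuationSubring (AlgebraicClosure ℚ)) (_ : A.LiesOverPrime ℓ),
    ¬ W.InZeroComponentAt A Q) := by
  intro H
  obtain ⟨A, hA⟩ := exists_liesOver 31 (by norm_num)
  refine H (p := 5) (by norm_num) W5 (by rw [W5_Δ]; norm_num) Q5 Q5_fixed addOrderOf_Q5
    (by rw [W5_Δ]; norm_num) (by rw [W5_c₄]; norm_num) (fun A hA => not_inZero_Q5_two hA)
    (by rw [W5_Δ]; norm_num) (by rw [W5_c₄]; norm_num) (fun A hA => not_inZero_Q5_three hA)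
    (ℓ := 31) (by norm_num) (by norm_num) (by rw [W5_Δ]; norm_num) (by rw [W5_c₄]; norm_num)
    A hA (inZero_Q5_thirtyOne hA)

/-! ### The same phenomenon for `p = 7` (curve `y² - 5xy - 18y = x³ - 18x²`, `Δ = -29 * 6^7`, `ℓ = 29`) -/

/-- Tate normal form curve `y² - 5xy - 18y = x³ - 18x²`; `(0,0)` has order 7. -/
def W7 : WeierstrassCurve ℤ := ⟨-5, -18, -18, 0, 0⟩

lemma W7_Δ : W7.Δ = -8118144 := by
  simp [W7, WeierstrassCurve.Δ, WeierstrassCurve.b₂, WeierstrassCurve.b₄, WeierstrassCurve.b₆,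
    WeierstrassCurve.b₈]

lemma W7_c₄ : W7.c₄ = 49 := by
  simp [W7, WeierstrassCurve.c₄, WeierstrassCurve.b₂, WeierstrassCurve.b₄]

noncomputable abbrev E7 : WeierstrassCurve.Affine K := (W7.map (Int.castRingHom ℚ))⁄K

lemma E7_a₁ : E7.a₁ = -5 := by simp [E7, W7, WeierstrassCurve.baseChange]
lemma E7_a₂ : E7.a₂ = -18 := by simp [E7, W7, WeierstrassCurve.baseChange]
lemma E7_a₃ : E7.a₃ = -18 := by simp [E7, W7, WeierstrassCurve.baseChange]
lemma E7_a₄ : E7.a₄ = 0 := by simp [E7, W7, WeierstrassCurve.baseChange]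
lemma E7_a₆ : E7.a₆ = 0 := by simp [E7, W7, WeierstrassCurve.baseChange]

lemma E7_ns00 : E7.Nonsingular 0 0 := by
  rw [nonsingular_zero, E7_a₆, E7_a₃]
  exact ⟨rfl, Or.inl (by norm_num)⟩

lemma E7_ns18 : E7.Nonsingular 18 108 := by
  rw [nonsingular_iff, equation_iff, E7_a₁, E7_a₂, E7_a₃, E7_a₄, E7_a₆]
  refine ⟨by norm_num, Or.inr (by norm_num)⟩

lemma E7_ns6 : E7.Nonsingular 6 12 := by
  rw [nonsingular_iff, equation_iff, E7_a₁, E7_a₂, E7_a₃, E7_a₄, E7_a₆]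
  refine ⟨by norm_num, Or.inr (by norm_num)⟩

noncomputable def Q7 : E7.Point := .some 0 0 E7_ns00
noncomputable def R7 : E7.Point := .some 18 108 E7_ns18
noncomputable def T7 : E7.Point := .some 6 12 E7_ns6

lemma Q7_add_Q7 : Q7 + Q7 = R7 := by
  have hy : (0 : K) ≠ E7.negY 0 0 := by
    rw [negY, E7_a₁, E7_a₃]; norm_num
  rw [Q7, Point.add_self_of_Y_ne hy, R7, Point.some.injEq]
  rw [slope_of_Y_ne rfl hy]
  simp only [addX, addY, negAddY, negY, E7_a₁, E7_a₂, E7_a₃, E7_a₄]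
  constructor <;> norm_num

lemma R7_add_Q7 : R7 + Q7 = T7 := by
  have hx : (18 : K) ≠ 0 := by norm_num
  rw [R7, Q7, Point.add_of_X_ne hx, T7, Point.some.injEq]
  rw [slope_of_X_ne hx]
  simp only [addX, addY, negAddY, negY, E7_a₁, E7_a₂, E7_a₃]
  constructor <;> norm_num

lemma T7_add_T7 : T7 + T7 = -Q7 := by
  have hy : (12 : K) ≠ E7.negY 6 12 := by
    rw [negY, E7_a₁, E7_a₃]; norm_num
  rw [T7, Point.add_self_of_Y_ne hy, Q7, Point.neg_some, Point.some.injEq]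
  rw [slope_of_Y_ne rfl hy]
  simp only [addX, addY, negAddY, negY, E7_a₁, E7_a₂, E7_a₃, E7_a₄]
  constructor <;> norm_num

lemma seven_nsmul_Q7 : 7 • Q7 = 0 := by
  have : 7 • Q7 = ((Q7 + Q7) + Q7) + ((Q7 + Q7) + Q7) + Q7 := by abel
  rw [this, Q7_add_Q7, R7_add_Q7, T7_add_T7]; simp

lemma addOrderOf_Q7 : addOrderOf Q7 = 7 := by
  have : Fact (Nat.Prime 7) := ⟨by norm_num⟩
  exact addOrderOf_eq_prime seven_nsmul_Q7 (Point.some_ne_zero _)

lemma Q7_fixed (σ : K ≃ₐ[ℚ] K) : σ • Q7 = Q7 := by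
  rw [Point.algEquiv_smul_def, Q7, Point.map_some, Point.some.injEq]
  exact ⟨map_zero _, map_zero _⟩

lemma not_inZero_Q7 {A : ValuationSubring K}
    (h6 : (6 : IsLocalRing.ResidueField A) = 0) : ¬ W7.InZeroComponentAt A Q7 := by
  rintro (h0 | ⟨x, y, h, hQ, hx | ⟨hx, hy, hns⟩⟩)
  · exact Point.some_ne_zero _ h0
  · obtain ⟨rfl, rfl⟩ := Point.some.inj hQ
    exact hx A.zero_mem
  · obtain ⟨rfl, rfl⟩ := Point.some.inj hQ
    have h00 : (⟨0, hx⟩ : A) = 0 := rfl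
    rw [h00, map_zero, nonsingular_zero] at hns
    obtain ⟨-, h3 | h4⟩ := hns
    · apply h3
      have h18 : (18 : IsLocalRing.ResidueField A) = 6 * 3 := by norm_num
      simp only [W7, WeierstrassCurve.map_a₃, eq_intCast, Int.cast_neg, Int.cast_ofNat, h18, h6,
        zero_mul, neg_zero]
    · apply h4
      simp [W7]

lemma inZero_Q7_twentyNine {A : ValuationSubring K} (hA : A.LiesOverPrime 29) :
    W7.InZeroComponentAt A Q7 := by
  refine Or.inr ⟨0, 0, E7_ns00, rfl, Or.inr ⟨A.zero_mem, A.zero_mem, ?_⟩⟩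
  have h00 : (⟨0, A.zero_mem⟩ : A) = 0 := rfl
  rw [h00, map_zero, nonsingular_zero]
  refine ⟨by simp [W7], Or.inl ?_⟩
  have h := natCast_residue_eq_zero hA
  intro h3
  simp only [W7, WeierstrassCurve.map_a₃, eq_intCast, Int.cast_neg, Int.cast_ofNat,
    neg_eq_zero] at h3
  have h1 : (1 : IsLocalRing.ResidueField A)
      = 8 * 18 * 18 - 2 * 18 * 18 - 67 * ((29 : ℕ) : IsLocalRing.ResidueField A) := by
    push_cast; norm_num
  rw [h, h3] at h1
  simp at h1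

/-- **S15 with `p ∉ {2, 3, 5, 7, 13}` removed is also false for `p = 7`.** -/
theorem S15_without_hp'_is_false_seven :
    ¬ (∀ (W : WeierstrassCurve ℤ) (_ : W.Δ ≠ 0)
    (Q : ((W.map (Int.castRingHom ℚ))⁄(AlgebraicClosure ℚ)).Point)
    (_ : ∀ σ : AlgebraicClosure ℚ ≃ₐ[ℚ] AlgebraicClosure ℚ, σ • Q = Q)
    (_ : addOrderOf Q = 7)
    (_ : (2 : ℤ) ∣ W.Δ) (_ : ¬ (2 : ℤ) ∣ W.c₄)
    (_ : ∀ A : ValuationSubring (AlgebraicClosure ℚ), A.LiesOverPrime 2 → ¬ W.InZeroComponentAt A Q)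
    (_ : (3 : ℤ) ∣ W.Δ) (_ : ¬ (3 : ℤ) ∣ W.c₄)
    (_ : ∀ A : ValuationSubring (AlgebraicClosure ℚ), A.LiesOverPrime 3 → ¬ W.InZeroComponentAt A Q)
    {ℓ : ℕ} (_ : ℓ.Prime) (_ : ℓ ≠ 7) (_ : (ℓ : ℤ) ∣ W.Δ) (_ : ¬ (ℓ : ℤ) ∣ W.c₄)
    (A : ValuationSubring (AlgebraicClosure ℚ)) (_ : A.LiesOverPrime ℓ),
    ¬ W.InZeroComponentAt A Q) := by
  intro H
  obtain ⟨A, hA⟩ := exists_liesOver 29 (by norm_num)
  have six_of_two : ∀ {B : ValuationSubring K}, B.LiesOverPrime 2 →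
      (6 : IsLocalRing.ResidueField B) = 0 := by
    intro B hB
    have h := natCast_residue_eq_zero hB
    have : (6 : IsLocalRing.ResidueField B) = ((2 : ℕ) : IsLocalRing.ResidueField B) * 3 := by
      push_cast; norm_num
    rw [this, h, zero_mul]
  have six_of_three : ∀ {B : ValuationSubring K}, B.LiesOverPrime 3 →
      (6 : IsLocalRing.ResidueField B) = 0 := by
    intro B hB
    have h := natCast_residue_eq_zero hB
    have : (6 : IsLocalRing.ResidueField B) = ((3 : ℕ) : IsLocalRing.ResidueField B) * 2 := by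
      push_cast; norm_num
    rw [this, h, zero_mul]
  refine H W7 (by rw [W7_Δ]; norm_num) Q7 Q7_fixed addOrderOf_Q7
    (by rw [W7_Δ]; norm_num) (by rw [W7_c₄]; norm_num)
    (fun B hB => not_inZero_Q7 (six_of_two hB))
    (by rw [W7_Δ]; norm_num) (by rw [W7_c₄]; norm_num)
    (fun B hB => not_inZero_Q7 (six_of_three hB))
    (ℓ := 29) (by norm_num) (by norm_num) (by rw [W7_Δ]; norm_num) (by rw [W7_c₄]; norm_num)
    A hA (inZero_Q7_twentyNine hA)

end Fermat.Agent.S15
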